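/-
S36, modular part, block S0 (sub-architect helper156).  (task S36-MOD-T1)

THE TABLE: restrictions of the vertical valuation rings along the degeneracy maps and the
Atkin-Lehner involutions, compatibilities of the residue maps, residues of the generators.

Method: `IntEmb.val_comp`, `val_dil`, `val_tw`, `val_bc`, `val_congr` and the `res_*` analogues
(`GaussEmb/Funct.lean`) + the relations of `Rel.lean`.  E.g. `e11 ∘ be1 = ((e10.bc ι).tw ζ)` as
embeddings, hence `V11.comap be1 = V10` and `r11 (be1 f) = r10 f`.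
-/
import Fermat.Agent.S36.Mod.RelMid
import Fermat.Agent.S36.Mod.GaussEmb.Basic
import Fermat.Agent.S36.Mod.GaussEmb.Funct
import Fermat.Agent.S36.Mod.HalfInst.Comap

set_option autoImplicit false
set_option linter.unusedSectionVars false

noncomputable section

namespace Fermat.Agent.S36.Mod.Setup

open ModularCurve Fermat.Agent.S24 Fermat.Agent.S18 Fermat.Agent.S18.Vert
  Fermat.Agent.S18.Descent

variable {K K' : Type*} [Field K] [Field K'] [Algebra ℚ K] [Algebra ℚ K'] [Algebra K Kbar]
  [Algebra K' Kbar] (S : Setup K K')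

/-! ### T1 : restrictions -/

theorem V1oo_comap_al0 : S.V1oo.comap S.al0.toRingHom = S.V0 :=
  IntEmb.comap_algHom_eq S.e1oo S.e0 S.al0 fun f => by rw [e1oo_apply, e0_apply, coe_al0]

theorem V1oo_comap_be0 : S.V1oo.comap S.be0.toRingHom = S.V0 :=
  IntEmb.comap_algHom_eq_dil S.e1oo S.e0 S.be0 S.q fun f => by
    rw [e1oo_apply, e0_apply, coe_be0]

theorem V10_comap_al0 : S.V10.comap S.al0.toRingHom = S.V0 :=
  IntEmb.comap_algHom_eq_dil S.e10 S.e0 S.al0 S.q fun f => by
    rw [e10_apply, e0_apply, w1_al0, coe_be0]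

theorem V10_comap_be0 : S.V10.comap S.be0.toRingHom = S.V0 :=
  IntEmb.comap_algHom_eq S.e10 S.e0 S.be0 fun f => by
    rw [e10_apply, e0_apply, w1_be0, coe_al0]

theorem V1oo_comap_w1 : S.V1oo.comap S.w1.toRingHom = S.V10 :=
  (S.e1oo.val_comp S.w1.toRingHom).symm

theorem V10_comap_w1 : S.V10.comap S.w1.toRingHom = S.V1oo :=
  IntEmb.comap_algHom_eq S.e10 S.e1oo S.w1 fun f => by rw [e10_apply, e1oo_apply, w1_w1]

-- `V20_comap_al1`, `V20_comap_be1`, `V11_comap_al1`, `V11_comap_be1`, `V02_comap_al1`,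
-- `V02_comap_be1` : see `HalfInst/Comap.lean` (same statements, proved).

theorem V20_comap_w2 : S.V20.comap S.w2.toRingHom = S.V02 :=
  (S.e20.val_comp S.w2.toRingHom).symm

theorem V02_comap_w2 : S.V02.comap S.w2.toRingHom = S.V20 :=
  IntEmb.comap_algHom_eq S.e02 S.e20 S.w2 fun f => by rw [e02_apply, e20_apply, w2_w2]

end Fermat.Agent.S36.Mod.Setup

end
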