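/-
S36, modular part, block S0 (sub-architect helper156).  (task S36-MOD-T3, proofs: helper264)

THE TABLE: restrictions of the vertical valuation rings along the degeneracy maps and the
Atkin-Lehner involutions, compatibilities of the residue maps, residues of the generators.

Method: `IntEmb.val_comp`, `val_dil`, `val_tw`, `val_bc`, `val_congr` and the `res_*` analogues
(`GaussEmb/Funct.lean`) + the relations of `Rel.lean`.  E.g. `e11 ∘ be1 = ((e10.bc ι).tw ζ)` as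
embeddings, hence `V11.comap be1 = V10` and `r11 (be1 f) = r10 f`.
-/
import Fermat.Agent.S36.Mod.RelMid
import Fermat.Agent.S36.Mod.GaussEmb.Basic
import Fermat.Agent.S36.Mod.GaussEmb.Funct

set_option autoImplicit false
set_option linter.unusedSectionVars false

noncomputable section

namespace Fermat.Agent.S36.Mod.Setup

open ModularCurve Fermat.Agent.S24 Fermat.Agent.S18 Fermat.Agent.S18.Vert
  Fermat.Agent.S18.Descent

variable {K K' : Type*} [Field K] [Field K'] [Algebra ℚ K] [Algebra ℚ K'] [Algebra K Kbar]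
  [Algebra K' Kbar] (S : Setup K K')

/-! ### T3 : constants and generators -/

/-- the reduction `B → 𝕜` -/
def redB : S.B →+* S.kk := (resFieldMap S.ι S.comap_ι).comp (IsLocalRing.residue S.B)

theorem charP_kk : CharP S.kk S.q := by
  have h0 : ((S.q : ℕ) : S.kk) = 0 := by
    have h1 : IsLocalRing.residue S.B ((S.q : ℕ) : S.B) = 0 := by
      rw [IsLocalRing.residue_eq_zero_iff, IsLocalRing.mem_maximalIdeal]
      exact S.unif.not_isUnit
    have h2 := congrArg (resFieldMap S.ι S.comap_ι) h1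
    rwa [map_natCast, map_natCast, map_zero] at h2
  exact (CharP.charP_iff_prime_eq_zero S.hq).2 h0

private theorem const_e0 (a : K) (ha : a ∈ S.B) :
    S.e0.toHom (algebraMap K S.F0 a) = inc S.B (HahnSeries.C ⟨a, ha⟩) := by
  rw [inc_C]; rfl

private theorem const_e1oo (a : K) (ha : a ∈ S.B) :
    S.e1oo.toHom (algebraMap K S.F1 a) = inc S.B (HahnSeries.C ⟨a, ha⟩) := by
  rw [inc_C]; rfl

private theorem const_e10 (a : K) (ha : a ∈ S.B) :
    S.e10.toHom (algebraMap K S.F1 a) = inc S.B (HahnSeries.C ⟨a, ha⟩) := by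
  rw [inc_C, e10_apply, AlgHom.commutes]; rfl

private theorem const_e20 (a : K) (ha : a ∈ S.B) :
    S.e20.toHom (algebraMap K S.F2 a) = inc S.B (HahnSeries.C ⟨a, ha⟩) := by
  rw [inc_C]; rfl

private theorem const_e02 (a : K) (ha : a ∈ S.B) :
    S.e02.toHom (algebraMap K S.F2 a) = inc S.B (HahnSeries.C ⟨a, ha⟩) := by
  rw [inc_C, e02_apply, AlgHom.commutes]; rfl

private theorem ι_mem (a : K) (ha : a ∈ S.B) : S.ι a ∈ S.B' := by
  have h1 : a ∈ S.B'.comap S.ι := by rw [S.comap_ι]; exact ha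
  exact h1

private theorem const_e11 (a : K) (ha : a ∈ S.B) :
    S.e11.toHom (algebraMap K S.F2 a) = inc S.B' (HahnSeries.C ⟨S.ι a, S.ι_mem a ha⟩) := by
  rw [inc_C]
  change S.midK' (S.toK' (S.N0 * S.q * S.q) (algebraMap K S.F2 a)) = _
  rw [toK', baseChangeMap_algebraMap, AlgHom.commutes]

theorem const_mem_V0 (a : K) (ha : a ∈ S.B) : algebraMap K S.F0 a ∈ S.V0 :=
  S.e0.mem_val_of_eq_inc (S.const_e0 a ha)

theorem const_mem_V1oo (a : K) (ha : a ∈ S.B) : algebraMap K S.F1 a ∈ S.V1oo :=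
  S.e1oo.mem_val_of_eq_inc (S.const_e1oo a ha)

theorem const_mem_V10 (a : K) (ha : a ∈ S.B) : algebraMap K S.F1 a ∈ S.V10 :=
  S.e10.mem_val_of_eq_inc (S.const_e10 a ha)

theorem const_mem_V20 (a : K) (ha : a ∈ S.B) : algebraMap K S.F2 a ∈ S.V20 :=
  S.e20.mem_val_of_eq_inc (S.const_e20 a ha)

theorem const_mem_V11 (a : K) (ha : a ∈ S.B) : algebraMap K S.F2 a ∈ S.V11 :=
  S.e11.mem_val_of_eq_inc (S.const_e11 a ha)

theorem const_mem_V02 (a : K) (ha : a ∈ S.B) : algebraMap K S.F2 a ∈ S.V02 :=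
  S.e02.mem_val_of_eq_inc (S.const_e02 a ha)

private theorem cK_red_C (a : S.B) :
    S.cK (red S.B (HahnSeries.C a)) = HahnSeries.C (S.redB a) := by
  rw [red_C, cK, HahnSeries.C_apply, coeffMap_single, HahnSeries.C_apply]
  rfl

theorem r0_const (a : K) (ha : a ∈ S.B) :
    S.r0 ⟨_, S.const_mem_V0 a ha⟩ = HahnSeries.C (S.redB ⟨a, ha⟩) := by
  rw [← cK_red_C, ← S.e0.res_of_eq_inc (S.const_e0 a ha)]
  rfl

theorem r1oo_const (a : K) (ha : a ∈ S.B) :
    S.r1oo ⟨_, S.const_mem_V1oo a ha⟩ = HahnSeries.C (S.redB ⟨a, ha⟩) := by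
  rw [← cK_red_C, ← S.e1oo.res_of_eq_inc (S.const_e1oo a ha)]
  rfl

theorem r10_const (a : K) (ha : a ∈ S.B) :
    S.r10 ⟨_, S.const_mem_V10 a ha⟩ = HahnSeries.C (S.redB ⟨a, ha⟩) := by
  rw [← cK_red_C, ← S.e10.res_of_eq_inc (S.const_e10 a ha)]
  rfl

theorem r20_const (a : K) (ha : a ∈ S.B) :
    S.r20 ⟨_, S.const_mem_V20 a ha⟩ = HahnSeries.C (S.redB ⟨a, ha⟩) := by
  rw [← cK_red_C, ← S.e20.res_of_eq_inc (S.const_e20 a ha)]
  rfl

theorem r11_const (a : K) (ha : a ∈ S.B) :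
    S.r11 ⟨_, S.const_mem_V11 a ha⟩ = HahnSeries.C (S.redB ⟨a, ha⟩) := by
  have h1 := S.e11.res_of_eq_inc (S.const_e11 a ha)
  rw [red_C] at h1
  exact h1

theorem r02_const (a : K) (ha : a ∈ S.B) :
    S.r02 ⟨_, S.const_mem_V02 a ha⟩ = HahnSeries.C (S.redB ⟨a, ha⟩) := by
  rw [← cK_red_C, ← S.e02.res_of_eq_inc (S.const_e02 a ha)]
  rfl

end Fermat.Agent.S36.Mod.Setup

end
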