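/-
S36, modular part, block S0 (sub-architect helper156).  (task S36-MOD-T4, proofs: helper107)

THE TABLE: restrictions of the vertical valuation rings along the degeneracy maps and the
Atkin-Lehner involutions, compatibilities of the residue maps, residues of the generators.

Method: `IntEmb.val_comp`, `val_dil`, `val_tw`, `val_bc`, `val_congr` and the `res_*` analogues
(`GaussEmb/Funct.lean`) + the relations of `Rel.lean`.  E.g. `e11 ∘ be1 = ((e10.bc ι).tw ζ)` as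
embeddings, hence `V11.comap be1 = V10` and `r11 (be1 f) = r10 f`.
-/
import Fermat.Agent.S36.Mod.RelMid
import Fermat.Agent.S36.Mod.GaussEmb.Basic
import Fermat.Agent.S36.Mod.GaussEmb.Funct
import Fermat.Agent.S36.Mod.Table.Const
import Fermat.Agent.S36.Mod.ThetaField

set_option autoImplicit false
set_option linter.unusedSectionVars false

noncomputable section

namespace Fermat.Agent.S36.Mod.Setup

open ModularCurve Fermat.Agent.S24 Fermat.Agent.S18 Fermat.Agent.S18.Vert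
  Fermat.Agent.S18.Descent

variable {K K' : Type*} [Field K] [Field K'] [Algebra ℚ K] [Algebra ℚ K'] [Algebra K Kbar]
  [Algebra K' Kbar] (S : Setup K K')

/-! ### T4 : generators -/

/-- `j(t^d)` with coefficients in `𝕜`. -/
def jb (d : ℕ) [NeZero d] : LaurentSeries S.kk :=
  coeffMap (Int.castRingHom S.kk)
    (qExpand ℤ d (HahnSeries.single (-1 : ℤ) 1 * HahnSeries.ofPowerSeries ℤ ℤ jNum))

/-- the coefficients of `j(t)` over `ℤ`. -/
theorem Gen.coeff_jZ (n : ℤ) :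
    (HahnSeries.single (-1 : ℤ) (1 : ℤ) * HahnSeries.ofPowerSeries ℤ ℤ jNum).coeff n =
      if n + 1 < 0 then 0 else PowerSeries.coeff (n + 1).natAbs jNum := by
  rw [HahnSeries.coeff_single_mul, one_mul, sub_neg_eq_add, PowerSeries.coeff_coe]

theorem Gen.coeff_jb_neg (d : ℕ) [NeZero d] : (S.jb d).coeff (-(d : ℤ)) = 1 := by
  have h : -(d : ℤ) = (d : ℤ) * (-1) := by ring
  rw [jb, coeffMap_coeff, h, qExpand_coeff_mul, Gen.coeff_jZ]
  have h1 : PowerSeries.coeff 0 jNum = 1 := by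
    rw [PowerSeries.coeff_zero_eq_constantCoeff_apply]
    exact constantCoeff_jNum
  simp [h1]

theorem Gen.coeff_jb_of_lt (d : ℕ) [NeZero d] {n : ℤ} (hn : n < -(d : ℤ)) :
    (S.jb d).coeff n = 0 := by
  rw [jb, coeffMap_coeff]
  by_cases hd : (d : ℤ) ∣ n
  · obtain ⟨m, rfl⟩ := hd
    have hd0 : (0 : ℤ) < d := by exact_mod_cast Nat.pos_of_ne_zero (NeZero.ne d)
    have hm : m + 1 < 0 := by
      by_contra hcon
      have h1 : -1 ≤ m := by omega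
      have := mul_le_mul_of_nonneg_left h1 hd0.le
      linarith
    rw [qExpand_coeff_mul, Gen.coeff_jZ, if_pos hm, map_zero]
  · rw [qExpand_coeff_of_not_dvd d _ hd, map_zero]

theorem jb_ne_zero (d : ℕ) [NeZero d] : S.jb d ≠ 0 := by
  intro h
  have h1 := Gen.coeff_jb_neg S d
  rw [h, HahnSeries.coeff_zero] at h1
  exact zero_ne_one h1

theorem order_jb (d : ℕ) [NeZero d] : (S.jb d).order = -(d : ℤ) := by
  refine le_antisymm (HahnSeries.order_le_of_coeff_ne_zero ?_) ?_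
  · rw [Gen.coeff_jb_neg]
    exact one_ne_zero
  · rw [HahnSeries.le_order_iff_forall (S.jb_ne_zero d)]
    intro n hn
    exact Gen.coeff_jb_of_lt S d hn

theorem qExpand_jb (n d : ℕ) [NeZero n] [NeZero d] : qExpand _ n (S.jb d) = S.jb (n * d) := by
  rw [jb, jb, ← qExpand_qExpand d n, coeffMap_qExpand _ n]

/-- Kronecker: `j(t^{q d}) = j(t^d)^q` in characteristic `q`. -/
theorem jb_q_mul (d : ℕ) [NeZero d] : S.jb (S.q * d) = S.jb d ^ S.q := by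
  have : Fact S.q.Prime := ⟨S.hq⟩
  have := S.charP_kk
  rw [pow_char_eq_qExpand S.q, ← qExpand_jb]
  congr 1
  rw [jb, coeffMap_coeffMap]
  exact coeffMap_congr (RingHom.ext_int _ _) _

/-! #### General principles -/

section principles

variable {F : Type*} [Field F]

/-- an element whose expansion is `j(t^d)` is integral (base ring `B`). -/
theorem Gen.mem_val_of_Js (φ : IntEmb S.B F) {f : F} (d : ℕ) [NeZero d]
    (h : φ.toHom f = Js K d) : f ∈ φ.val := by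
  obtain ⟨P, hP, -⟩ := exists_inc_eq_Js S.B d
  exact φ.mem_val_of_eq_inc (h.trans hP.symm)

/-- ... with residue `jb d`. -/
theorem Gen.cK_res_of_Js (φ : IntEmb S.B F) {f : F} (d : ℕ) [NeZero d]
    (h : φ.toHom f = Js K d) (hf : f ∈ φ.val) : S.cK (φ.res ⟨f, hf⟩) = S.jb d := by
  obtain ⟨P, hP, hred⟩ := exists_inc_eq_Js S.B d
  have h1 := φ.res_of_eq_inc (h.trans hP.symm)
  rw [h1, hred, cK, coeffMap_coeffMap]
  exact coeffMap_congr (RingHom.ext_int _ _) _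

/-- an element whose expansion is `j(t^d)` is integral (base ring `B'`). -/
theorem Gen.mem_val_of_Js' (φ : IntEmb S.B' F) {f : F} (d : ℕ) [NeZero d]
    (h : φ.toHom f = Js K' d) : f ∈ φ.val := by
  obtain ⟨P, hP, -⟩ := exists_inc_eq_Js S.B' d
  exact φ.mem_val_of_eq_inc (h.trans hP.symm)

/-- ... with residue `jb d`. -/
theorem Gen.res_of_Js' (φ : IntEmb S.B' F) {f : F} (d : ℕ) [NeZero d]
    (h : φ.toHom f = Js K' d) (hf : f ∈ φ.val) : φ.res ⟨f, hf⟩ = S.jb d := by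
  obtain ⟨P, hP, hred⟩ := exists_inc_eq_Js S.B' d
  have h1 := φ.res_of_eq_inc (h.trans hP.symm)
  rw [h1, hred]
  rfl

/-- the image of `ζ` in the residue field is `1`. -/
theorem Gen.resUnit_ζ : IntEmb.resUnit S.ζ S.ζ_mem S.ζ_inv_mem = 1 := by
  apply Units.ext
  change IsLocalRing.residue S.B' (⟨S.ζ, S.ζ_mem⟩ : S.B') = 1
  have h1 := S.ζ_sub_one_mem
  rw [ValuationSubring.mem_nonunits_iff_exists_mem_maximalIdeal] at h1
  obtain ⟨hm, hmax⟩ := h1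
  have h0 : IsLocalRing.residue S.B' ((⟨S.ζ, S.ζ_mem⟩ : S.B') - 1) = 0 := by
    rw [IsLocalRing.residue_eq_zero_iff]
    exact hmax
  rw [map_sub, map_one, sub_eq_zero] at h0
  exact h0

/-- the twist of `j(t^d)` is an integral series, with the same reduction. -/
theorem Gen.exists_inc_eq_twist (d : ℕ) [NeZero d] :
    ∃ P : LaurentSeries S.B', inc S.B' P = B.twist S.ζ (Js K' d) ∧ red S.B' P = S.jb d := by
  obtain ⟨P, hP, hred⟩ := exists_inc_eq_Js S.B' d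
  refine ⟨IntEmb.twA S.ζ S.ζ_mem S.ζ_inv_mem P, ?_, ?_⟩
  · rw [IntEmb.twA, inc_liftS, hP]
  · rw [IntEmb.red_twA, Gen.resUnit_ζ, B.twist_one, hred]
    rfl

/-- an element whose expansion is `j((ζ t)^d)` is integral. -/
theorem Gen.mem_val_of_twist (φ : IntEmb S.B' F) {f : F} (d : ℕ) [NeZero d]
    (h : φ.toHom f = B.twist S.ζ (Js K' d)) : f ∈ φ.val := by
  obtain ⟨P, hP, -⟩ := Gen.exists_inc_eq_twist S d
  exact φ.mem_val_of_eq_inc (h.trans hP.symm)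

/-- ... with residue `jb d`. -/
theorem Gen.res_of_twist (φ : IntEmb S.B' F) {f : F} (d : ℕ) [NeZero d]
    (h : φ.toHom f = B.twist S.ζ (Js K' d)) (hf : f ∈ φ.val) : φ.res ⟨f, hf⟩ = S.jb d := by
  obtain ⟨P, hP, hred⟩ := Gen.exists_inc_eq_twist S d
  have h1 := φ.res_of_eq_inc (h.trans hP.symm)
  rw [h1, hred]

end principles

/-! #### The expansions of the generators -/

theorem Gen.e10_JK (d e e' : ℕ) [NeZero d] [NeZero e] [NeZero e'] (hd : d ∣ S.N0)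
    (he : e * e' = S.q) (h1 : d * e ∣ S.N0 * S.q) :
    S.e10.toHom (JK K (S.N0 * S.q) (d * e) h1) = Js K (d * e') := by
  have h2 : d * e' ∣ S.N0 * S.q := Nat.mul_dvd_mul hd ⟨e, by rw [← he, mul_comm]⟩
  rw [e10_apply, w1, wAL_JK K (S.N0 * S.q) S.N0 S.q rfl S.coprime d e e' hd he h1 h2, coe_JK]

theorem Gen.e02_JK (d e e' : ℕ) [NeZero d] [NeZero e] [NeZero e'] (hd : d ∣ S.N0)
    (he : e * e' = S.q * S.q) (h1 : d * e ∣ S.N0 * S.q * S.q) :
    S.e02.toHom (JK K (S.N0 * S.q * S.q) (d * e) h1) = Js K (d * e') := by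
  have h2 : d * e' ∣ S.N0 * S.q * S.q := by
    rw [Nat.mul_assoc]
    exact Nat.mul_dvd_mul hd ⟨e, by rw [← he, mul_comm]⟩
  rw [e02_apply, w2, wAL_JK K (S.N0 * S.q * S.q) S.N0 (S.q * S.q) (Nat.mul_assoc _ _ _) S.coprime'
    d e e' hd he h1 h2, coe_JK]

theorem Gen.toK'_JK (N d : ℕ) [NeZero d] (hd : d ∣ N) : S.toK' N (JK K N d hd) = JK K' N d hd := by
  apply Subtype.ext
  rw [toK', coe_baseChangeMap, coe_JK, coe_JK, coeffMap_Js]

theorem Gen.e11_JK (d : ℕ) [NeZero d] (hd : d ∣ S.N0 * S.q) (h1 : d ∣ S.N0 * S.q * S.q) :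
    S.e11.toHom (JK K (S.N0 * S.q * S.q) d h1) = Js K' d := by
  show S.midK' (S.toK' (S.N0 * S.q * S.q) (JK K (S.N0 * S.q * S.q) d h1)) = _
  rw [Gen.toK'_JK, midK', mid_JK K' S.N0 S.q S.hq S.hqN S.ζ S.hζ d hd h1]

theorem Gen.e11_JK' (d : ℕ) [NeZero d] (hd : d ∣ S.N0) (h1 : d * S.q * S.q ∣ S.N0 * S.q * S.q) :
    S.e11.toHom (JK K (S.N0 * S.q * S.q) (d * S.q * S.q) h1) = B.twist S.ζ (Js K' d) := by
  show S.midK' (S.toK' (S.N0 * S.q * S.q) (JK K (S.N0 * S.q * S.q) (d * S.q * S.q) h1)) = _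
  rw [Gen.toK'_JK, midK', mid_JK' K' S.N0 S.q S.hq S.hqN S.ζ S.hζ d hd h1]

/-! #### The table -/

theorem JK_mem_V0 (d : ℕ) [NeZero d] (hd : d ∣ S.N0) : JK K S.N0 d hd ∈ S.V0 :=
  Gen.mem_val_of_Js S S.e0 d rfl

theorem r0_JK (d : ℕ) [NeZero d] (hd : d ∣ S.N0) : S.r0 ⟨_, S.JK_mem_V0 d hd⟩ = S.jb d :=
  Gen.cK_res_of_Js S S.e0 d rfl _

theorem JK_mem_V1oo (d : ℕ) [NeZero d] (hd : d ∣ S.N0 * S.q) :
    JK K (S.N0 * S.q) d hd ∈ S.V1oo :=
  Gen.mem_val_of_Js S S.e1oo d rfl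

theorem r1oo_JK (d : ℕ) [NeZero d] (hd : d ∣ S.N0 * S.q) :
    S.r1oo ⟨_, S.JK_mem_V1oo d hd⟩ = S.jb d :=
  Gen.cK_res_of_Js S S.e1oo d rfl _

theorem JK_mem_V10 (d : ℕ) [NeZero d] (hd : d ∣ S.N0 * S.q) :
    JK K (S.N0 * S.q) d hd ∈ S.V10 := by
  obtain ⟨d0, e, e', rfl, hd0, he, he0, he'0⟩ := EmbK.exists_factor S.hq.ne_zero hd
  have : NeZero d0 := ⟨fun h => NeZero.ne S.N0 (by rw [h] at hd0; exact Nat.eq_zero_of_zero_dvd hd0)⟩
  have : NeZero e := ⟨he0⟩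
  have : NeZero e' := ⟨he'0⟩
  exact Gen.mem_val_of_Js S S.e10 (d0 * e') (Gen.e10_JK S d0 e e' hd0 he hd)

theorem r10_JK (d e e' : ℕ) [NeZero d] [NeZero e] [NeZero e'] (hd : d ∣ S.N0) (he : e * e' = S.q)
    (h1 : d * e ∣ S.N0 * S.q) : S.r10 ⟨_, S.JK_mem_V10 (d * e) h1⟩ = S.jb (d * e') :=
  Gen.cK_res_of_Js S S.e10 (d * e') (Gen.e10_JK S d e e' hd he h1) _

theorem JK_mem_V20 (d : ℕ) [NeZero d] (hd : d ∣ S.N0 * S.q * S.q) :
    JK K (S.N0 * S.q * S.q) d hd ∈ S.V20 :=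
  Gen.mem_val_of_Js S S.e20 d rfl

theorem r20_JK (d : ℕ) [NeZero d] (hd : d ∣ S.N0 * S.q * S.q) :
    S.r20 ⟨_, S.JK_mem_V20 d hd⟩ = S.jb d :=
  Gen.cK_res_of_Js S S.e20 d rfl _

theorem JK_mem_V02 (d : ℕ) [NeZero d] (hd : d ∣ S.N0 * S.q * S.q) :
    JK K (S.N0 * S.q * S.q) d hd ∈ S.V02 := by
  obtain ⟨d0, e, e', rfl, hd0, he, he0, he'0⟩ :=
    EmbK.exists_factor (mul_ne_zero S.hq.ne_zero S.hq.ne_zero) ((Nat.mul_assoc _ _ _) ▸ hd)
  have : NeZero d0 := ⟨fun h => NeZero.ne S.N0 (by rw [h] at hd0; exact Nat.eq_zero_of_zero_dvd hd0)⟩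
  have : NeZero e := ⟨he0⟩
  have : NeZero e' := ⟨he'0⟩
  exact Gen.mem_val_of_Js S S.e02 (d0 * e') (Gen.e02_JK S d0 e e' hd0 he hd)

theorem r02_JK (d e e' : ℕ) [NeZero d] [NeZero e] [NeZero e'] (hd : d ∣ S.N0)
    (he : e * e' = S.q * S.q) (h1 : d * e ∣ S.N0 * S.q * S.q) :
    S.r02 ⟨_, S.JK_mem_V02 (d * e) h1⟩ = S.jb (d * e') :=
  Gen.cK_res_of_Js S S.e02 (d * e') (Gen.e02_JK S d e e' hd he h1) _

theorem JK_mem_V11 (d : ℕ) [NeZero d] (hd : d ∣ S.N0 * S.q * S.q) :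
    JK K (S.N0 * S.q * S.q) d hd ∈ S.V11 := by
  have hd' : d ∣ S.N0 * S.q ^ 2 := by rwa [sq, ← mul_assoc]
  obtain ⟨a, b, ha, hb, hab⟩ := (Nat.dvd_mul).1 hd'
  obtain ⟨i, hi, rfl⟩ := (Nat.dvd_prime_pow S.hq).1 hb
  have : NeZero a := ⟨fun h => NeZero.ne S.N0 (by rw [h] at ha; exact Nat.eq_zero_of_zero_dvd ha)⟩
  rcases Nat.lt_or_ge i 2 with hi2 | hi2
  · have h1 : d ∣ S.N0 * S.q := by
      rw [← hab]
      exact Nat.mul_dvd_mul ha (by
        have := pow_dvd_pow S.q (Nat.lt_succ_iff.mp hi2)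
        rwa [pow_one] at this)
    exact Gen.mem_val_of_Js' S S.e11 d (Gen.e11_JK S d h1 hd)
  · obtain rfl : i = 2 := le_antisymm hi hi2
    have h2 : a * S.q * S.q ∣ S.N0 * S.q * S.q :=
      Nat.mul_dvd_mul_right (Nat.mul_dvd_mul_right ha S.q) S.q
    have h3 : d = a * S.q * S.q := by rw [← hab]; ring
    rw [JK_congr K (S.N0 * S.q * S.q) h3 hd h2]
    exact Gen.mem_val_of_twist S S.e11 a (Gen.e11_JK' S a ha h2)

theorem r11_JK (d : ℕ) [NeZero d] (hd : d ∣ S.N0 * S.q) (h1 : d ∣ S.N0 * S.q * S.q) :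
    S.r11 ⟨_, S.JK_mem_V11 d h1⟩ = S.jb d :=
  Gen.res_of_Js' S S.e11 d (Gen.e11_JK S d hd h1) _

theorem r11_JK' (d : ℕ) [NeZero d] (hd : d ∣ S.N0) (h1 : d * S.q * S.q ∣ S.N0 * S.q * S.q) :
    S.r11 ⟨_, S.JK_mem_V11 (d * S.q * S.q) h1⟩ = S.jb d :=
  Gen.res_of_twist S S.e11 d (Gen.e11_JK' S d hd h1) _

end Fermat.Agent.S36.Mod.Setup

end
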