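/-
S36, modular part, block S0 (sub-architect helper156).  (task S36-MOD-T2)

THE TABLE: restrictions of the vertical valuation rings along the degeneracy maps and the
Atkin-Lehner involutions, compatibilities of the residue maps, residues of the generators.

Method: `IntEmb.val_comp`, `val_dil`, `val_tw`, `val_bc`, `val_congr` and the `res_*` analogues
(`GaussEmb/Funct.lean`) + the relations of `Rel.lean`.  E.g. `e11 ∘ be1 = ((e10.bc ι).tw ζ)` as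
embeddings, hence `V11.comap be1 = V10` and `r11 (be1 f) = r10 f`.
-/
import Fermat.Agent.S36.Mod.RelMid
import Fermat.Agent.S36.Mod.GaussEmb.Basic
import Fermat.Agent.S36.Mod.GaussEmb.Funct

set_option autoImplicit false
set_option linter.unusedSectionVars false

noncomputable section

namespace Fermat.Agent.S36.Mod.Setup

open ModularCurve Fermat.Agent.S24 Fermat.Agent.S18 Fermat.Agent.S18.Vert
  Fermat.Agent.S18.Descent

variable {K K' : Type*} [Field K] [Field K'] [Algebra ℚ K] [Algebra ℚ K'] [Algebra K Kbar]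
  [Algebra K' Kbar] (S : Setup K K')

/-! ### Auxiliary: transport of the residue map along a homomorphism of fields -/

section ResAux

variable {L : Type*} [Field L] {A : ValuationSubring L} [IsDiscreteValuationRing A]
  {F F' : Type*} [Field F] [Field F'] {R : Type*} [CommSemiring R] [Algebra R F] [Algebra R F']

/-- `φ ∘ g = ψ` as embeddings: same residues. -/
theorem resAux_hom (φ : IntEmb A F) (ψ : IntEmb A F') (g : F' →ₐ[R] F)
    (hg : ∀ f, φ.toHom (g f) = ψ.toHom f) (f : F') (h : f ∈ ψ.val) (h' : g f ∈ φ.val) :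
    φ.res ⟨g f, h'⟩ = ψ.res ⟨f, h⟩ :=
  IntEmb.res_congr (φ := φ.comp g.toRingHom) (ψ := ψ) (RingHom.ext hg) f h' h

/-- `φ ∘ g = ψ(t ^ n)` as embeddings. -/
theorem resAux_dil (φ : IntEmb A F) (ψ : IntEmb A F') (g : F' →ₐ[R] F) (n : ℕ) [NeZero n]
    (hg : ∀ f, φ.toHom (g f) = qExpand L n (ψ.toHom f)) (f : F') (h : f ∈ ψ.val)
    (h' : g f ∈ φ.val) : φ.res ⟨g f, h'⟩ = qExpand _ n (ψ.res ⟨f, h⟩) := by
  have h2 : f ∈ (ψ.dil n).val := by rw [IntEmb.val_dil]; exact h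
  rw [resAux_hom φ (ψ.dil n) g hg f h2 h', IntEmb.res_dil ψ n f h2 h]

end ResAux

theorem cK_qExpand (x : LaurentSeries (IsLocalRing.ResidueField S.B)) :
    S.cK (qExpand _ S.q x) = qExpand _ S.q (S.cK x) :=
  coeffMap_qExpand _ S.q x

theorem r0_apply (x : S.V0) : S.r0 x = S.cK (S.e0.res x) := rfl
theorem r1oo_apply (x : S.V1oo) : S.r1oo x = S.cK (S.e1oo.res x) := rfl
theorem r10_apply (x : S.V10) : S.r10 x = S.cK (S.e10.res x) := rfl
theorem r20_apply (x : S.V20) : S.r20 x = S.cK (S.e20.res x) := rfl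
theorem r02_apply (x : S.V02) : S.r02 x = S.cK (S.e02.res x) := rfl
theorem r11_apply (x : S.V11) : S.r11 x = S.e11.res x := rfl

/-! ### T2 : the residue maps -/

theorem cK_injective : Function.Injective S.cK :=
  Fermat.Agent.S18.Descent.coeffMap_injective _ (RingHom.injective _)

theorem r0_eq_zero_iff (f : S.V0) : S.r0 f = 0 ↔ (f : S.F0) ∈ S.V0.nonunits := by
  rw [r0_apply, map_eq_zero_iff S.cK S.cK_injective]
  exact S.e0.res_eq_zero_iff f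

theorem r1oo_eq_zero_iff (f : S.V1oo) : S.r1oo f = 0 ↔ (f : S.F1) ∈ S.V1oo.nonunits := by
  rw [r1oo_apply, map_eq_zero_iff S.cK S.cK_injective]
  exact S.e1oo.res_eq_zero_iff f

theorem r10_eq_zero_iff (f : S.V10) : S.r10 f = 0 ↔ (f : S.F1) ∈ S.V10.nonunits := by
  rw [r10_apply, map_eq_zero_iff S.cK S.cK_injective]
  exact S.e10.res_eq_zero_iff f

theorem r20_eq_zero_iff (f : S.V20) : S.r20 f = 0 ↔ (f : S.F2) ∈ S.V20.nonunits := by
  rw [r20_apply, map_eq_zero_iff S.cK S.cK_injective]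
  exact S.e20.res_eq_zero_iff f

theorem r11_eq_zero_iff (f : S.V11) : S.r11 f = 0 ↔ (f : S.F2) ∈ S.V11.nonunits := by
  rw [r11_apply]
  exact S.e11.res_eq_zero_iff f

theorem r02_eq_zero_iff (f : S.V02) : S.r02 f = 0 ↔ (f : S.F2) ∈ S.V02.nonunits := by
  rw [r02_apply, map_eq_zero_iff S.cK S.cK_injective]
  exact S.e02.res_eq_zero_iff f

theorem r1oo_al0 (f : S.F0) (h : f ∈ S.V0) (h' : S.al0 f ∈ S.V1oo) :
    S.r1oo ⟨S.al0 f, h'⟩ = S.r0 ⟨f, h⟩ := by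
  rw [r1oo_apply, r0_apply]
  exact congrArg S.cK (resAux_hom S.e1oo S.e0 S.al0
    (fun f => by rw [S.e1oo_apply, S.e0_apply, S.coe_al0]) f h h')

theorem r1oo_be0 (f : S.F0) (h : f ∈ S.V0) (h' : S.be0 f ∈ S.V1oo) :
    S.r1oo ⟨S.be0 f, h'⟩ = qExpand _ S.q (S.r0 ⟨f, h⟩) := by
  rw [r1oo_apply, r0_apply, ← cK_qExpand]
  exact congrArg S.cK (resAux_dil S.e1oo S.e0 S.be0 S.q
    (fun f => by rw [S.e1oo_apply, S.e0_apply, S.coe_be0]) f h h')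

theorem r10_al0 (f : S.F0) (h : f ∈ S.V0) (h' : S.al0 f ∈ S.V10) :
    S.r10 ⟨S.al0 f, h'⟩ = qExpand _ S.q (S.r0 ⟨f, h⟩) := by
  rw [r10_apply, r0_apply, ← cK_qExpand]
  exact congrArg S.cK (resAux_dil S.e10 S.e0 S.al0 S.q
    (fun f => by rw [S.e10_apply, S.e0_apply, S.w1_al0, S.coe_be0]) f h h')

theorem r10_be0 (f : S.F0) (h : f ∈ S.V0) (h' : S.be0 f ∈ S.V10) :
    S.r10 ⟨S.be0 f, h'⟩ = S.r0 ⟨f, h⟩ := by
  rw [r10_apply, r0_apply]
  exact congrArg S.cK (resAux_hom S.e10 S.e0 S.be0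
    (fun f => by rw [S.e10_apply, S.e0_apply, S.w1_be0, S.coe_al0]) f h h')

theorem r1oo_w1 (f : S.F1) (h : f ∈ S.V10) (h' : S.w1 f ∈ S.V1oo) :
    S.r1oo ⟨S.w1 f, h'⟩ = S.r10 ⟨f, h⟩ := rfl

theorem r10_w1 (f : S.F1) (h : f ∈ S.V1oo) (h' : S.w1 f ∈ S.V10) :
    S.r10 ⟨S.w1 f, h'⟩ = S.r1oo ⟨f, h⟩ := by
  rw [r10_apply, r1oo_apply]
  exact congrArg S.cK (resAux_hom S.e10 S.e1oo S.w1
    (fun f => by rw [S.e10_apply, S.e1oo_apply, S.w1_w1]) f h h')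

theorem r20_al1 (f : S.F1) (h : f ∈ S.V1oo) (h' : S.al1 f ∈ S.V20) :
    S.r20 ⟨S.al1 f, h'⟩ = S.r1oo ⟨f, h⟩ := by
  rw [r20_apply, r1oo_apply]
  exact congrArg S.cK (resAux_hom S.e20 S.e1oo S.al1
    (fun f => by rw [S.e20_apply, S.e1oo_apply, S.coe_al1]) f h h')

theorem r20_be1 (f : S.F1) (h : f ∈ S.V1oo) (h' : S.be1 f ∈ S.V20) :
    S.r20 ⟨S.be1 f, h'⟩ = qExpand _ S.q (S.r1oo ⟨f, h⟩) := by
  rw [r20_apply, r1oo_apply, ← cK_qExpand]
  exact congrArg S.cK (resAux_dil S.e20 S.e1oo S.be1 S.q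
    (fun f => by rw [S.e20_apply, S.e1oo_apply, S.coe_be1]) f h h')

theorem bc_toHom_apply {F : Type*} [Field F] (φ : IntEmb S.B F) (f : F) :
    (φ.bc S.ι S.comap_ι).toHom f = coeffMap S.ι (φ.toHom f) := rfl

theorem tw_toHom_apply {F : Type*} [Field F] (φ : IntEmb S.B' F) (f : F) :
    (φ.tw S.ζ S.ζ_mem S.ζ_inv_mem).toHom f = B.twist S.ζ (φ.toHom f) := rfl

theorem r11_al1 (f : S.F1) (h : f ∈ S.V1oo) (h' : S.al1 f ∈ S.V11) :
    S.r11 ⟨S.al1 f, h'⟩ = S.r1oo ⟨f, h⟩ := by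
  have h2 : f ∈ (S.e1oo.bc S.ι S.comap_ι).val := by rw [IntEmb.val_bc]; exact h
  rw [r11_apply, r1oo_apply]
  exact (resAux_hom S.e11 (S.e1oo.bc S.ι S.comap_ι) S.al1
    (fun f => by rw [S.e11_al1, S.bc_toHom_apply, S.e1oo_apply]) f h2 h').trans
      (IntEmb.res_bc S.e1oo S.ι S.comap_ι f h2 h)

theorem r11_be1 (f : S.F1) (h : f ∈ S.V10) (h' : S.be1 f ∈ S.V11) :
    S.r11 ⟨S.be1 f, h'⟩ = S.r10 ⟨f, h⟩ := by
  have h2 : f ∈ (S.e10.bc S.ι S.comap_ι).val := by rw [IntEmb.val_bc]; exact h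
  have h3 : f ∈ ((S.e10.bc S.ι S.comap_ι).tw S.ζ S.ζ_mem S.ζ_inv_mem).val := by
    rw [IntEmb.val_tw]; exact h2
  rw [r11_apply, r10_apply]
  exact ((resAux_hom S.e11 ((S.e10.bc S.ι S.comap_ι).tw S.ζ S.ζ_mem S.ζ_inv_mem) S.be1
    (fun f => by rw [S.e11_be1, S.tw_toHom_apply, S.bc_toHom_apply, S.e10_apply]) f h3 h').trans
      (IntEmb.res_tw_of_sub_one _ S.ζ S.ζ_mem S.ζ_inv_mem S.ζ_sub_one_mem f h3 h2)).trans
        (IntEmb.res_bc S.e10 S.ι S.comap_ι f h2 h)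

theorem r02_al1 (f : S.F1) (h : f ∈ S.V10) (h' : S.al1 f ∈ S.V02) :
    S.r02 ⟨S.al1 f, h'⟩ = qExpand _ S.q (S.r10 ⟨f, h⟩) := by
  rw [r02_apply, r10_apply, ← cK_qExpand]
  exact congrArg S.cK (resAux_dil S.e02 S.e10 S.al1 S.q
    (fun f => by rw [S.e02_apply, S.e10_apply, S.w2_al1, S.coe_be1]) f h h')

theorem r02_be1 (f : S.F1) (h : f ∈ S.V10) (h' : S.be1 f ∈ S.V02) :
    S.r02 ⟨S.be1 f, h'⟩ = S.r10 ⟨f, h⟩ := by
  rw [r02_apply, r10_apply]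
  exact congrArg S.cK (resAux_hom S.e02 S.e10 S.be1
    (fun f => by rw [S.e02_apply, S.e10_apply, S.w2_be1, S.coe_al1]) f h h')

theorem r20_w2 (f : S.F2) (h : f ∈ S.V02) (h' : S.w2 f ∈ S.V20) :
    S.r20 ⟨S.w2 f, h'⟩ = S.r02 ⟨f, h⟩ := rfl

theorem r02_w2 (f : S.F2) (h : f ∈ S.V20) (h' : S.w2 f ∈ S.V02) :
    S.r02 ⟨S.w2 f, h'⟩ = S.r20 ⟨f, h⟩ := by
  rw [r02_apply, r20_apply]
  exact congrArg S.cK (resAux_hom S.e02 S.e20 S.w2
    (fun f => by rw [S.e02_apply, S.e20_apply, S.w2_w2]) f h h')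

end Fermat.Agent.S36.Mod.Setup

end
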